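/-
S19, reduction (RED), dual-lattice step (helper72): lattices of Galois-equivariant functions on a
finite set and their duals with respect to the dot product.

`ℤ_(ℓ) = Zl ℓ`, `Qb = AlgebraicClosure ℚ`, `Gal = Qb ≃ₐ[ℚ] Qb` (as in `S19/HopfOrder/Zl`).

* `dotB G`       : the dot product `∑ x, f x * g x` on `G → Qb` (symmetric, nondegenerate);
* `IsEqv act f`  : `f (act σ x) = σ (f x)`;
* `IsLat ℓ act N`: `N` is the `ℤ_(ℓ)`-span of a `ℚ̄`-basis of `G → Qb` made of equivariant functions;
* `dualLat ℓ act N` : the equivariant `f` with `dotB f c ∈ ℤ_(ℓ)` for all `c ∈ N`;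
* `IsLat.dual`, `IsLat.dual_dual`, `IsLat.fg`, `isLat_of_fg` (a finitely generated module of
  equivariant functions spanning `G → Qb` over `ℚ̄` is a lattice);
* `span_eq_top_of_sep` : a multiplicatively closed set of functions containing `1` and separating
  the points spans all functions.
-/
import Mathlib
import Fermat.Agent.S19.HopfOrder.Indep

set_option autoImplicit false

noncomputable section

namespace Fermat.Agent.S19.Red.DualLattice

open GaloisRep
open Fermat.Agent.S19.HopfOrder

variable {ℓ : ℕ} {G : Type} [Fintype G]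

/-! ### The dot product -/

/-- The dot product on `G → Qb` as a bilinear form. -/
def dotB (G : Type) [Fintype G] : LinearMap.BilinForm Qb (G → Qb) :=
  LinearMap.mk₂ Qb (fun f g => ∑ x, f x * g x)
    (fun f f' g => by simp [add_mul, Finset.sum_add_distrib])
    (fun c f g => by simp [Finset.mul_sum, mul_assoc])
    (fun f g g' => by simp [mul_add, Finset.sum_add_distrib])
    (fun c f g => by simp [Finset.mul_sum, mul_left_comm])

theorem dotB_apply (f g : G → Qb) : dotB G f g = ∑ x, f x * g x := rfl

theorem dotB_comm (f g : G → Qb) : dotB G f g = dotB G g f := by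
  simp only [dotB_apply, mul_comm]

theorem dotB_single [DecidableEq G] (f : G → Qb) (x : G) :
    dotB G f (Pi.single x 1) = f x := by
  rw [dotB_apply, Finset.sum_eq_single x]
  · simp
  · intro y _ hy
    simp [Pi.single_eq_of_ne hy]
  · intro h
    exact absurd (Finset.mem_univ x) h

theorem dotB_nondegenerate : (dotB G).Nondegenerate := by
  classical
  constructor
  · intro f hf
    funext x
    have h := hf (Pi.single x 1)
    rwa [dotB_single] at h
  · intro g hg
    funext x
    have h := hg (Pi.single x 1)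
    rwa [dotB_comm, dotB_single] at h

theorem dotB_isSymm : (dotB G).IsSymm := ⟨dotB_comm⟩

theorem dotB_smul_Zl (r : Zl ℓ) (f g : G → Qb) :
    dotB G f (r • g) = algebraMap (Zl ℓ) Qb r * dotB G f g := by
  rw [dotB_apply, dotB_apply, Finset.mul_sum]
  refine Finset.sum_congr rfl fun x _ => ?_
  rw [Pi.smul_apply, Algebra.smul_def]
  ring

theorem dotB_smul_Zl_left (r : Zl ℓ) (f g : G → Qb) :
    dotB G (r • f) g = algebraMap (Zl ℓ) Qb r * dotB G f g := by
  rw [dotB_comm, dotB_smul_Zl, dotB_comm]

/-- If `f` is orthogonal to a basis, it vanishes. -/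
theorem eq_zero_of_dotB_basis {κ : Type} [Fintype κ] (b : Module.Basis κ Qb (G → Qb))
    {f : G → Qb} (hf : ∀ i, dotB G f (b i) = 0) : f = 0 := by
  apply dotB_nondegenerate.1
  intro g
  rw [← b.sum_repr g, map_sum]
  refine Finset.sum_eq_zero fun j _ => ?_
  rw [map_smul, hf j, smul_zero]

/-! ### Equivariant functions -/

/-- Galois-equivariant functions. -/
def IsEqv (act : Gal → G → G) (f : G → Qb) : Prop :=
  ∀ (σ : Gal) (x : G), f (act σ x) = σ (f x)

omit [Fintype G] in
theorem IsEqv.add {act : Gal → G → G} {f g : G → Qb} (hf : IsEqv act f) (hg : IsEqv act g) :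
    IsEqv act (f + g) := fun σ x => by
  rw [Pi.add_apply, Pi.add_apply, hf σ x, hg σ x, map_add]

omit [Fintype G] in
theorem IsEqv.mul {act : Gal → G → G} {f g : G → Qb} (hf : IsEqv act f) (hg : IsEqv act g) :
    IsEqv act (f * g) := fun σ x => by
  rw [Pi.mul_apply, Pi.mul_apply, hf σ x, hg σ x, map_mul]

omit [Fintype G] in
theorem IsEqv.zero (act : Gal → G → G) : IsEqv act (0 : G → Qb) := fun σ x => by
  rw [Pi.zero_apply, Pi.zero_apply, map_zero]

omit [Fintype G] in
theorem IsEqv.one (act : Gal → G → G) : IsEqv act (1 : G → Qb) := fun σ x => by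
  rw [Pi.one_apply, Pi.one_apply, map_one]

omit [Fintype G] in
theorem IsEqv.smul_Zl {act : Gal → G → G} {f : G → Qb} (hf : IsEqv act f) (r : Zl ℓ) :
    IsEqv act (r • f) := fun σ x => by
  rw [Pi.smul_apply, Pi.smul_apply, Algebra.smul_def, Algebra.smul_def, hf σ x, map_mul,
    algebraMap_Zl_Qb, AlgEquiv.commutes]

omit [Fintype G] in
theorem IsEqv.smul_rat {act : Gal → G → G} {f : G → Qb} (hf : IsEqv act f) (q : ℚ) :
    IsEqv act (q • f) := fun σ x => by
  rw [Pi.smul_apply, Pi.smul_apply, Algebra.smul_def, Algebra.smul_def, hf σ x, map_mul,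
    AlgEquiv.commutes]

/-- The dot product of two equivariant functions is Galois-fixed. -/
theorem dotB_fixed {act : Gal → G → G} (hbij : ∀ σ, Function.Bijective (act σ))
    {f g : G → Qb} (hf : IsEqv act f) (hg : IsEqv act g) (σ : Gal) :
    σ (dotB G f g) = dotB G f g := by
  rw [dotB_apply, map_sum, ← (hbij σ).sum_comp (fun y => f y * g y)]
  refine Finset.sum_congr rfl fun x _ => ?_
  rw [map_mul, hf σ x, hg σ x]

/-- The dot product of two integral-valued equivariant functions lies in `ℤ_(ℓ)`. -/
theorem dotB_mem_Zl {act : Gal → G → G} (hbij : ∀ σ, Function.Bijective (act σ))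
    {f g : G → Qb} (hf : IsEqv act f) (hg : IsEqv act g)
    (hfi : ∀ x, IsIntegral (Zl ℓ) (f x)) (hgi : ∀ x, IsIntegral (Zl ℓ) (g x)) :
    ∃ r : Zl ℓ, algebraMap (Zl ℓ) Qb r = dotB G f g := by
  refine mem_range_of_fixed_of_isIntegral ℓ (dotB_fixed hbij hf hg) ?_
  rw [dotB_apply]
  exact IsIntegral.sum _ fun x _ => (hfi x).mul (hgi x)

/-! ### Separation and spanning -/

/-- A multiplicatively closed set of functions on a finite set which contains `1` and separates
the points spans all functions. -/
theorem span_eq_top_of_sep (S : Set (G → Qb)) (h1 : (1 : G → Qb) ∈ S)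
    (hmulS : ∀ u w : G → Qb, u ∈ S → w ∈ S → u * w ∈ S)
    (hsep : ∀ x y : G, x ≠ y → ∃ f ∈ S, f x ≠ f y) :
    Submodule.span Qb S = ⊤ := by
  classical
  set V := Submodule.span Qb S with hV
  have h1V : (1 : G → Qb) ∈ V := Submodule.subset_span h1
  have hmul : ∀ u w : G → Qb, u ∈ V → w ∈ V → u * w ∈ V := by
    intro u w hu hw
    induction hu using Submodule.span_induction with
    | mem a ha =>
      induction hw using Submodule.span_induction with
      | mem b hb => exact Submodule.subset_span (hmulS a b ha hb)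
      | zero => rw [mul_zero]; exact V.zero_mem
      | add b c _ _ hb hc => rw [mul_add]; exact V.add_mem hb hc
      | smul c b _ hb => rw [mul_smul_comm]; exact V.smul_mem c hb
    | zero => rw [zero_mul]; exact V.zero_mem
    | add a b _ _ ha hb => rw [add_mul]; exact V.add_mem ha hb
    | smul c a _ ha => rw [smul_mul_assoc]; exact V.smul_mem c ha
  have hconst : ∀ c : Qb, (fun _ : G => c) ∈ V := by
    intro c
    have h : (fun _ : G => c) = c • (1 : G → Qb) := by
      funext z
      simp
    rw [h]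
    exact V.smul_mem c h1V
  have hsingle : ∀ x : G, (Pi.single x 1 : G → Qb) ∈ V := by
    intro x
    have hex : ∀ y : G, ∃ a : G → Qb, a ∈ S ∧ (y ≠ x → a x ≠ a y) := by
      intro y
      by_cases hy : y = x
      · exact ⟨1, h1, fun h => absurd hy h⟩
      · obtain ⟨a, haS, ha⟩ := hsep x y (Ne.symm hy)
        exact ⟨a, haS, fun _ => ha⟩
    choose a haS ha using hex
    let F : G → (G → Qb) := fun y =>
      (a y - fun _ => a y y) * fun _ => (a y x - a y y)⁻¹
    have hF : ∀ y, F y ∈ V := fun y =>
      hmul _ _ (V.sub_mem (Submodule.subset_span (haS y)) (hconst _)) (hconst _)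
    have hprod : (∏ y ∈ Finset.univ.erase x, F y) ∈ V :=
      Finset.prod_induction F (· ∈ V) hmul h1V (fun y _ => hF y)
    have heq : (∏ y ∈ Finset.univ.erase x, F y) = Pi.single x 1 := by
      funext z
      rw [Finset.prod_apply]
      by_cases hz : z = x
      · subst hz
        rw [Pi.single_eq_same]
        refine Finset.prod_eq_one fun y hy => ?_
        have hyx : y ≠ z := Finset.ne_of_mem_erase hy
        simp only [F, Pi.mul_apply, Pi.sub_apply]
        exact mul_inv_cancel₀ (sub_ne_zero.mpr (ha y hyx))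
      · rw [Pi.single_eq_of_ne hz]
        refine Finset.prod_eq_zero (Finset.mem_erase.mpr ⟨hz, Finset.mem_univ z⟩) ?_
        simp [F]
    rw [← heq]
    exact hprod
  rw [eq_top_iff]
  intro f _
  have hf : f = ∑ x, f x • (Pi.single x 1 : G → Qb) := by
    conv_lhs => rw [← Finset.univ_sum_single f]
    refine Finset.sum_congr rfl fun x _ => ?_
    funext z
    by_cases hz : z = x
    · subst hz; simp
    · simp [Pi.single_eq_of_ne hz]
  rw [hf]
  exact V.sum_mem fun x _ => V.smul_mem _ (hsingle x)

omit [Fintype G] in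
/-- A set of functions spanning all functions separates the points. -/
theorem sep_of_span_eq_top (S : Set (G → Qb)) (hS : Submodule.span Qb S = ⊤) :
    ∀ x y : G, x ≠ y → ∃ f ∈ S, f x ≠ f y := by
  classical
  intro x y hxy
  by_contra hcon
  have hcon' : ∀ f ∈ S, f x = f y := fun f hf => by_contra fun h => hcon ⟨f, hf, h⟩
  have key : ∀ f ∈ Submodule.span Qb S, f x = f y := by
    intro f hf
    induction hf using Submodule.span_induction with
    | mem b hb => exact hcon' b hb
    | zero => rfl
    | add b c _ _ hb hc =>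
      change b x + c x = b y + c y
      rw [hb, hc]
    | smul r b _ hb =>
      change r • b x = r • b y
      rw [hb]
  have h := key (Pi.single x 1) (hS ▸ Submodule.mem_top)
  rw [Pi.single_eq_same, Pi.single_eq_of_ne (Ne.symm hxy)] at h
  exact one_ne_zero h

/-! ### Lattices and their duals -/

/-- A `ℤ_(ℓ)`-lattice of equivariant functions: the `ℤ_(ℓ)`-span of a `ℚ̄`-basis of `G → Qb`
consisting of equivariant functions. -/
def IsLat (ℓ : ℕ) (act : Gal → G → G) (N : Submodule (Zl ℓ) (G → Qb)) : Prop :=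
  ∃ (κ : Type) (_ : Fintype κ) (b : Module.Basis κ Qb (G → Qb)),
    (∀ i, IsEqv act (b i)) ∧ N = Submodule.span (Zl ℓ) (Set.range b)

/-- The dual of a module of functions: the equivariant functions whose dot products with the
elements of `N` lie in `ℤ_(ℓ)`. -/
def dualLat (ℓ : ℕ) (act : Gal → G → G) (N : Submodule (Zl ℓ) (G → Qb)) :
    Submodule (Zl ℓ) (G → Qb) where
  carrier := {f | IsEqv act f ∧ ∀ c ∈ N, ∃ r : Zl ℓ, algebraMap (Zl ℓ) Qb r = dotB G f c}
  add_mem' := by
    rintro f g ⟨hf, hf'⟩ ⟨hg, hg'⟩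
    refine ⟨hf.add hg, fun c hc => ?_⟩
    obtain ⟨r, hr⟩ := hf' c hc
    obtain ⟨s, hs⟩ := hg' c hc
    exact ⟨r + s, by rw [map_add, hr, hs, map_add, LinearMap.add_apply]⟩
  zero_mem' := ⟨IsEqv.zero act, fun c _ => ⟨0, by rw [map_zero, map_zero, LinearMap.zero_apply]⟩⟩
  smul_mem' := by
    rintro r f ⟨hf, hf'⟩
    refine ⟨hf.smul_Zl r, fun c hc => ?_⟩
    obtain ⟨s, hs⟩ := hf' c hc
    exact ⟨r * s, by rw [map_mul, hs, dotB_smul_Zl_left]⟩

theorem mem_dualLat {act : Gal → G → G} {N : Submodule (Zl ℓ) (G → Qb)} {f : G → Qb} :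
    f ∈ dualLat ℓ act N ↔
      IsEqv act f ∧ ∀ c ∈ N, ∃ r : Zl ℓ, algebraMap (Zl ℓ) Qb r = dotB G f c := Iff.rfl

theorem dualLat_anti {act : Gal → G → G} {N N' : Submodule (Zl ℓ) (G → Qb)} (h : N ≤ N') :
    dualLat ℓ act N' ≤ dualLat ℓ act N := fun _ hf => ⟨hf.1, fun c hc => hf.2 c (h hc)⟩

/-- The dual basis of a basis of equivariant functions consists of equivariant functions. -/
theorem isEqv_dualBasis {act : Gal → G → G} (hbij : ∀ σ, Function.Bijective (act σ))
    {κ : Type} [Fintype κ] [DecidableEq κ] (b : Module.Basis κ Qb (G → Qb))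
    (hb : ∀ i, IsEqv act (b i)) (k : κ) :
    IsEqv act ((dotB G).dualBasis dotB_nondegenerate b k) := by
  intro σ x
  set a := (dotB G).dualBasis dotB_nondegenerate b k with ha
  let e := Equiv.ofBijective (act σ) (hbij σ)
  let a' : G → Qb := fun y => σ (a (e.symm y))
  have h1 : ∀ j, dotB G a' (b j) = dotB G a (b j) := by
    intro j
    have h2 : dotB G a' (b j) = σ (dotB G a (b j)) := by
      rw [dotB_apply, dotB_apply, map_sum, ← Equiv.sum_comp e]
      refine Finset.sum_congr rfl fun y _ => ?_
      have h3 : b j (e y) = σ (b j y) := hb j σ y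
      simp only [a', Equiv.symm_apply_apply]
      rw [map_mul, h3]
    rw [h2, ha, LinearMap.BilinForm.apply_dualBasis_left]
    split_ifs <;> simp
  have h3 : a' = a := by
    have h4 : a' - a = 0 := by
      apply eq_zero_of_dotB_basis b
      intro j
      rw [map_sub, LinearMap.sub_apply, h1 j, sub_self]
    exact sub_eq_zero.mp h4
  have h5 : a' (act σ x) = a (act σ x) := congrFun h3 (act σ x)
  have h6 : e.symm (act σ x) = x := e.symm_apply_apply x
  simp only [a', h6] at h5
  exact h5.symm

/-- The dual of the span of an equivariant basis is the span of the dual basis. -/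
theorem dualLat_span_basis {act : Gal → G → G} (hbij : ∀ σ, Function.Bijective (act σ))
    {κ : Type} [Fintype κ] [DecidableEq κ] (b : Module.Basis κ Qb (G → Qb))
    (hb : ∀ i, IsEqv act (b i)) :
    dualLat ℓ act (Submodule.span (Zl ℓ) (Set.range b)) =
      Submodule.span (Zl ℓ) (Set.range ((dotB G).dualBasis dotB_nondegenerate b)) := by
  apply le_antisymm
  · rintro f ⟨_, hf⟩
    rw [← ((dotB G).dualBasis dotB_nondegenerate b).sum_repr f]
    refine Submodule.sum_mem _ fun i _ => ?_
    obtain ⟨r, hr⟩ := hf (b i) (Submodule.subset_span ⟨i, rfl⟩)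
    rw [LinearMap.BilinForm.dualBasis_repr_apply, ← hr, algebraMap_smul]
    exact Submodule.smul_mem _ _ (Submodule.subset_span ⟨i, rfl⟩)
  · refine Submodule.span_le.mpr ?_
    rintro _ ⟨k, rfl⟩
    refine ⟨isEqv_dualBasis hbij b hb k, fun c hc => ?_⟩
    induction hc using Submodule.span_induction with
    | mem c hc =>
      obtain ⟨j, rfl⟩ := hc
      rw [LinearMap.BilinForm.apply_dualBasis_left]
      by_cases hjk : j = k
      · exact ⟨1, by rw [map_one, if_pos hjk]⟩
      · exact ⟨0, by rw [map_zero, if_neg hjk]⟩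
    | zero => exact ⟨0, by rw [map_zero, map_zero]⟩
    | add c d _ _ hc hd =>
      obtain ⟨r, hr⟩ := hc
      obtain ⟨s, hs⟩ := hd
      exact ⟨r + s, by rw [map_add, hr, hs, map_add]⟩
    | smul r c _ hc =>
      obtain ⟨s, hs⟩ := hc
      exact ⟨r * s, by rw [map_mul, hs, dotB_smul_Zl]⟩

namespace IsLat

variable {act : Gal → G → G} {N : Submodule (Zl ℓ) (G → Qb)}

omit [Fintype G] in
theorem fg (h : IsLat ℓ act N) : N.FG := by
  obtain ⟨κ, _, b, _, rfl⟩ := h
  exact Submodule.fg_span (Set.finite_range b)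

omit [Fintype G] in
theorem isEqv (h : IsLat ℓ act N) {f : G → Qb} (hf : f ∈ N) : IsEqv act f := by
  obtain ⟨κ, _, b, hb, rfl⟩ := h
  induction hf using Submodule.span_induction with
  | mem c hc =>
    obtain ⟨j, rfl⟩ := hc
    exact hb j
  | zero => exact IsEqv.zero act
  | add c d _ _ hc hd => exact hc.add hd
  | smul r c _ hc => exact hc.smul_Zl r

omit [Fintype G] in
theorem span_eq_top (h : IsLat ℓ act N) : Submodule.span Qb (N : Set (G → Qb)) = ⊤ := by
  obtain ⟨κ, _, b, _, rfl⟩ := h
  rw [eq_top_iff, ← b.span_eq]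
  exact Submodule.span_mono Submodule.subset_span

theorem dual (h : IsLat ℓ act N) (hbij : ∀ σ, Function.Bijective (act σ)) :
    IsLat ℓ act (dualLat ℓ act N) := by
  classical
  obtain ⟨κ, _, b, hb, rfl⟩ := h
  exact ⟨κ, inferInstance, (dotB G).dualBasis dotB_nondegenerate b,
    isEqv_dualBasis hbij b hb, dualLat_span_basis hbij b hb⟩

theorem dual_dual (h : IsLat ℓ act N) (hbij : ∀ σ, Function.Bijective (act σ)) :
    dualLat ℓ act (dualLat ℓ act N) = N := by
  classical
  obtain ⟨κ, _, b, hb, rfl⟩ := h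
  rw [dualLat_span_basis hbij b hb,
    dualLat_span_basis hbij _ (isEqv_dualBasis hbij b hb),
    LinearMap.BilinForm.dualBasis_dualBasis dotB_nondegenerate dotB_isSymm]

end IsLat

omit [Fintype G] in
/-- A finitely generated `ℤ_(ℓ)`-module of equivariant functions spanning all functions over
`ℚ̄` is a lattice. -/
theorem isLat_of_fg {act : Gal → G → G} (hsurj : ∀ σ, Function.Surjective (act σ))
    {N : Submodule (Zl ℓ) (G → Qb)} (hN : N.FG) (heqv : ∀ f ∈ N, IsEqv act f)
    (hspan : Submodule.span Qb (N : Set (G → Qb)) = ⊤) : IsLat ℓ act N := by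
  have hfin : Module.Finite (Zl ℓ) N := Module.Finite.iff_fg.mpr hN
  have htf0 : Module.IsTorsionFree (Zl ℓ) (G → Qb) := by
    refine ⟨fun r hr f g h => ?_⟩
    have hr0 : r ≠ 0 := hr.ne_zero
    have hr1 : algebraMap (Zl ℓ) Qb r ≠ 0 := by
      intro h0
      exact hr0 (algebraMap_Zl_injective ℓ (by rw [h0, map_zero]))
    funext x
    have h2 := congrFun h x
    simp only [Pi.smul_apply, Algebra.smul_def] at h2
    exact mul_left_cancel₀ hr1 h2
  have htf : Module.IsTorsionFree (Zl ℓ) N :=
    Function.Injective.moduleIsTorsionFree (N := G → Qb) (fun a : N => (a : G → Qb))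
      Subtype.val_injective (fun _ _ => rfl)
  have hfree : Module.Free (Zl ℓ) N := Module.free_of_finite_type_torsion_free'
  let β := Module.Free.chooseBasis (Zl ℓ) N
  let v : Module.Free.ChooseBasisIndex (Zl ℓ) N → G → Qb := fun i => ((β i : N) : G → Qb)
  have hR : LinearIndependent (Zl ℓ) v :=
    β.linearIndependent.map' N.subtype (Submodule.ker_subtype N)
  have hℚ : LinearIndependent ℚ v := (LinearIndependent.iff_fractionRing (Zl ℓ) ℚ).mp hR
  have hQb : LinearIndependent Qb v :=
    linearIndependent_of_equivariant act hsurj v (fun i σ x => heqv _ (β i).2 σ x) hℚ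
  have hNspan : N = Submodule.span (Zl ℓ) (Set.range v) := by
    have h1 : Set.range v = N.subtype '' Set.range β := by
      rw [← Set.range_comp]
      rfl
    rw [h1, ← Submodule.map_span, β.span_eq, Submodule.map_subtype_top]
  have hsp : ⊤ ≤ Submodule.span Qb (Set.range v) := by
    rw [← hspan]
    refine Submodule.span_le.mpr ?_
    intro f hf
    have hf' : f ∈ Submodule.span (Zl ℓ) (Set.range v) := hNspan ▸ hf
    exact Submodule.span_le_restrictScalars (Zl ℓ) Qb (Set.range v) hf'
  refine ⟨_, inferInstance, Module.Basis.mk hQb hsp, ?_, ?_⟩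
  · intro i
    rw [Module.Basis.mk_apply]
    exact heqv _ (β i).2
  · rw [Module.Basis.coe_mk]
    exact hNspan

end Fermat.Agent.S19.Red.DualLattice
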