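/-
S19, reduction (RED), dual-lattice step (helper72): valuation facts and the maximal order.

* valuation facts for a valuation subring `A` of `Qb` over the prime `ℓ`:
  `algebraMap_Zl_mem` (`ℤ_(ℓ) ⊆ A`), `mem_Zl_of_algebraMap_mem` (`A ∩ ℚ ⊆ ℤ_(ℓ)`),
  `mem_of_isIntegral_Zl` (integral over `ℤ_(ℓ)` ⇒ in `A`),
  `isIntegral_of_forall_conj_mem` (all conjugates in `A` ⇒ integral over `ℤ_(ℓ)`);
* `Omax ℓ act` : the equivariant functions with values integral over `ℤ_(ℓ)`;
  `isLat_Omax` : if it separates the points, it is a lattice (finitely generated).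
-/
import Mathlib
import Fermat.Prelude.Def_FLTPrelim_Ramification
import Fermat.Agent.S19.Red.DualLattice.Lattice

set_option autoImplicit false

noncomputable section

namespace Fermat.Agent.S19.Red.DualLattice

open GaloisRep
open Fermat.Agent.S19.HopfOrder

/-! ### Valuation facts -/

section Val

variable (A : ValuationSubring Qb) {ℓ : ℕ}

theorem natCast_not_mem_max (hA : A.LiesOverPrime ℓ) {m : ℕ} (hm : Nat.Coprime m ℓ) :
    ((m : ℕ) : A) ∉ IsLocalRing.maximalIdeal A := by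
  intro hmA
  have hℓA : ((ℓ : ℕ) : A) ∈ IsLocalRing.maximalIdeal A := by
    rw [← ValuationSubring.coe_mem_nonunits_iff]
    exact hA
  have hb : (Nat.gcd m ℓ : ℤ) = m * Nat.gcdA m ℓ + ℓ * Nat.gcdB m ℓ := Nat.gcd_eq_gcd_ab m ℓ
  rw [hm] at hb
  have h1 : (1 : A) = ((Nat.gcdA m ℓ : ℤ) : A) * ((m : ℕ) : A) + ((Nat.gcdB m ℓ : ℤ) : A) * ((ℓ : ℕ) : A) := by
    have h2 := congrArg (Int.cast : ℤ → A) hb
    push_cast at h2
    rw [h2]
    ring
  have h3 : (1 : A) ∈ IsLocalRing.maximalIdeal A := by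
    rw [h1]
    exact Ideal.add_mem _ (Ideal.mul_mem_left _ _ hmA) (Ideal.mul_mem_left _ _ hℓA)
  exact (Ideal.ne_top_iff_one _).mp (IsLocalRing.maximalIdeal.isMaximal A).ne_top h3

theorem natCast_inv_mem (hA : A.LiesOverPrime ℓ) {m : ℕ} (hm : Nat.Coprime m ℓ) :
    ((m : Qb))⁻¹ ∈ A := by
  have h1 : IsUnit ((m : ℕ) : A) := by
    by_contra h
    exact natCast_not_mem_max A hA hm ((IsLocalRing.mem_maximalIdeal _).mpr h)
  obtain ⟨u, hu⟩ := h1.exists_left_inv
  have h2 : (u : Qb) * (m : Qb) = 1 := by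
    have h3 := congrArg (fun a : A => (a : Qb)) hu
    simpa using h3
  have h4 : ((m : Qb))⁻¹ = (u : Qb) := (eq_inv_of_mul_eq_one_left h2).symm
  rw [h4]
  exact u.2

theorem algebraMap_Zl_mem (hA : A.LiesOverPrime ℓ) (r : Zl ℓ) :
    algebraMap (Zl ℓ) Qb r ∈ A := by
  rw [algebraMap_Zl_Qb]
  have h1 : algebraMap ℚ Qb (r : ℚ) = ((r : ℚ).num : Qb) * (((r : ℚ).den : ℕ) : Qb)⁻¹ := by
    rw [eq_ratCast, Rat.cast_def, div_eq_mul_inv]
  rw [h1]
  exact A.mul_mem _ _ (intCast_mem A _) (natCast_inv_mem A hA r.2)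

theorem mem_Zl_of_algebraMap_mem (hℓ : ℓ.Prime) (hA : A.LiesOverPrime ℓ) {q : ℚ}
    (h : algebraMap ℚ Qb q ∈ A) : q ∈ ratLocalizedAt ℓ := by
  change q.den.Coprime ℓ
  by_contra hcop
  have hdvd : ℓ ∣ q.den := by
    by_contra hnd
    exact hcop ((Nat.Prime.coprime_iff_not_dvd hℓ).mpr hnd).symm
  have hnum : Nat.Coprime q.num.natAbs ℓ := by
    exact Nat.Coprime.coprime_dvd_right hdvd q.reduced
  have hℓA : ((ℓ : ℕ) : A) ∈ IsLocalRing.maximalIdeal A := by
    rw [← ValuationSubring.coe_mem_nonunits_iff]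
    exact hA
  obtain ⟨k, hk⟩ := hdvd
  -- `q.num = q * q.den = q * ℓ * k` lies in the maximal ideal
  have h1 : ((q.num : ℤ) : A) = (⟨algebraMap ℚ Qb q, h⟩ : A) * ((ℓ : ℕ) : A) * ((k : ℕ) : A) := by
    apply Subtype.ext
    have h2 : (q.num : ℚ) = q * (q.den : ℚ) := (Rat.mul_den_eq_num q).symm
    have h3 : ((q.num : ℤ) : Qb) = algebraMap ℚ Qb q * ((q.den : ℕ) : Qb) := by
      have h4 := congrArg (algebraMap ℚ Qb) h2
      rw [map_mul, map_intCast, map_natCast] at h4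
      exact h4
    push_cast
    rw [h3, hk]
    push_cast
    ring
  have h5 : ((q.num : ℤ) : A) ∈ IsLocalRing.maximalIdeal A := by
    rw [h1]
    exact Ideal.mul_mem_right _ _ (Ideal.mul_mem_left _ _ hℓA)
  have h6 : ((q.num.natAbs : ℕ) : A) ∈ IsLocalRing.maximalIdeal A := by
    rcases Int.natAbs_eq q.num with h7 | h7
    · have h8 : ((q.num : ℤ) : A) = ((q.num.natAbs : ℕ) : A) := by
        have h9 := congrArg (Int.cast : ℤ → A) h7
        rw [Int.cast_natCast] at h9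
        exact h9
      rw [← h8]
      exact h5
    · have h8 : ((q.num : ℤ) : A) = -((q.num.natAbs : ℕ) : A) := by
        have h9 := congrArg (Int.cast : ℤ → A) h7
        rw [Int.cast_neg, Int.cast_natCast] at h9
        exact h9
      have h10 : ((q.num.natAbs : ℕ) : A) = -((q.num : ℤ) : A) := by
        rw [h8, neg_neg]
      rw [h10]
      exact (Ideal.neg_mem_iff _).mpr h5
  exact natCast_not_mem_max A hA hnum h6

theorem mem_of_isIntegral_Zl (hA : A.LiesOverPrime ℓ) {z : Qb} (hz : IsIntegral (Zl ℓ) z) :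
    z ∈ A := by
  obtain ⟨P, hP, hPz⟩ := hz
  let φ : Zl ℓ →+* A := (algebraMap (Zl ℓ) Qb).codRestrict A.toSubring
    (fun r => algebraMap_Zl_mem A hA r)
  have h1 : IsIntegral A z := by
    refine ⟨P.map φ, hP.map φ, ?_⟩
    rw [Polynomial.eval₂_map]
    exact hPz
  obtain ⟨y, hy⟩ := IsIntegrallyClosed.algebraMap_eq_of_integral h1
  rw [← hy]
  exact y.2

theorem isIntegral_of_forall_conj_mem (hℓ : ℓ.Prime) (hA : A.LiesOverPrime ℓ) {z : Qb}
    (hz : ∀ σ : Gal, σ z ∈ A) : IsIntegral (Zl ℓ) z := by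
  have halg : IsAlgebraic ℚ z := (AlgebraicClosure.isAlgebraic ℚ).isAlgebraic z
  have hint : IsIntegral ℚ z := halg.isIntegral
  have : IsAlgClosure ℚ Qb := AlgebraicClosure.instIsAlgClosure ℚ
  have hnormal : Normal ℚ Qb := inferInstance
  set P := minpoly ℚ z with hPdef
  have hmonic : P.Monic := minpoly.monic hint
  have hsplit : (P.map (algebraMap ℚ Qb)).Splits := IsAlgClosed.splits _
  -- all roots lie in `A`
  have hroots : ∀ r ∈ (P.map (algebraMap ℚ Qb)).roots, r ∈ A := by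
    intro r hr
    have hr' : Polynomial.aeval r P = 0 := by
      rw [Polynomial.mem_roots (hmonic.map _).ne_zero, Polynomial.IsRoot.def,
        Polynomial.eval_map_algebraMap] at hr
      exact hr
    obtain ⟨σ, hσ⟩ := minpoly.exists_algEquiv_of_root (K := ℚ) (L := Qb) halg hr'
    have hr2 : r = σ.symm z := by rw [← hσ, AlgEquiv.symm_apply_apply]
    rw [hr2]
    exact hz σ.symm
  -- the polynomial has coefficients in `A`
  have hlift : P.map (algebraMap ℚ Qb) ∈ (Polynomial.mapRingHom A.subtype).range := by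
    rw [hsplit.eq_prod_roots_of_monic (hmonic.map _)]
    refine Subring.multiset_prod_mem _ _ ?_
    intro t ht
    obtain ⟨r, hr, rfl⟩ := Multiset.mem_map.mp ht
    refine ⟨Polynomial.X - Polynomial.C (⟨r, hroots r hr⟩ : A), ?_⟩
    simp
  obtain ⟨Q', hQ'⟩ := hlift
  have hcoeff : ∀ n, algebraMap ℚ Qb (P.coeff n) ∈ A := by
    intro n
    have h1 : (P.map (algebraMap ℚ Qb)).coeff n = algebraMap ℚ Qb (P.coeff n) :=
      Polynomial.coeff_map _ _
    rw [← h1, ← hQ']
    simp only [Polynomial.coe_mapRingHom, Polynomial.coeff_map]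
    exact (Q'.coeff n).2
  have hT : (↑P.coeffs : Set ℚ) ⊆ (ratLocalizedAt ℓ : Set ℚ) := by
    intro c hc
    obtain ⟨n, _, rfl⟩ := Polynomial.mem_coeffs_iff.mp hc
    exact mem_Zl_of_algebraMap_mem A hℓ hA (hcoeff n)
  refine ⟨P.toSubring (ratLocalizedAt ℓ) hT, (Polynomial.monic_toSubring P _ hT).mpr hmonic, ?_⟩
  have h2 : Polynomial.eval₂ (algebraMap (Zl ℓ) Qb) z (P.toSubring (ratLocalizedAt ℓ) hT) =
      Polynomial.eval₂ (algebraMap ℚ Qb) z
        ((P.toSubring (ratLocalizedAt ℓ) hT).map (ratLocalizedAt ℓ).subtype) := by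
    rw [Polynomial.eval₂_map]
    rfl
  rw [h2, Polynomial.map_toSubring]
  exact minpoly.aeval ℚ z

end Val

/-! ### The maximal order -/

variable {ℓ : ℕ} {G : Type} [Fintype G]

/-- The maximal order: the equivariant functions with values integral over `ℤ_(ℓ)`. -/
def Omax (ℓ : ℕ) (act : Gal → G → G) : Submodule (Zl ℓ) (G → Qb) where
  carrier := {f | IsEqv act f ∧ ∀ x, IsIntegral (Zl ℓ) (f x)}
  add_mem' := by
    rintro f g ⟨hf, hf'⟩ ⟨hg, hg'⟩
    exact ⟨hf.add hg, fun x => (hf' x).add (hg' x)⟩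
  zero_mem' := ⟨IsEqv.zero act, fun _ => isIntegral_zero⟩
  smul_mem' := by
    rintro r f ⟨hf, hf'⟩
    refine ⟨hf.smul_Zl r, fun x => ?_⟩
    rw [Pi.smul_apply, Algebra.smul_def]
    exact isIntegral_algebraMap.mul (hf' x)

omit [Fintype G] in
theorem mem_Omax {act : Gal → G → G} {f : G → Qb} :
    f ∈ Omax ℓ act ↔ IsEqv act f ∧ ∀ x, IsIntegral (Zl ℓ) (f x) := Iff.rfl

omit [Fintype G] in
theorem one_mem_Omax (act : Gal → G → G) : (1 : G → Qb) ∈ Omax ℓ act :=
  ⟨IsEqv.one act, fun _ => isIntegral_one⟩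

omit [Fintype G] in
theorem mul_mem_Omax {act : Gal → G → G} {f g : G → Qb} (hf : f ∈ Omax ℓ act)
    (hg : g ∈ Omax ℓ act) : f * g ∈ Omax ℓ act :=
  ⟨hf.1.mul hg.1, fun x => (hf.2 x).mul (hg.2 x)⟩

theorem Omax_le_dualLat {act : Gal → G → G} (hbij : ∀ σ, Function.Bijective (act σ)) :
    Omax ℓ act ≤ dualLat ℓ act (Omax ℓ act) := fun _ hf =>
  ⟨hf.1, fun _ hc => dotB_mem_Zl hbij hf.1 hc.1 hf.2 hc.2⟩

omit [Fintype G] in
/-- A submodule of a finitely generated `ℤ_(ℓ)`-module is finitely generated. -/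
theorem fg_of_le_fg {M : Type*} [AddCommGroup M] [Module (Zl ℓ) M] {N P : Submodule (Zl ℓ) M}
    (hP : P.FG) (h : N ≤ P) : N.FG := by
  have : IsNoetherian (Zl ℓ) P := isNoetherian_of_fg_of_noetherian P hP
  have h1 : (Submodule.comap P.subtype N).FG := IsNoetherian.noetherian _
  have h2 := h1.map P.subtype
  rwa [Submodule.map_comap_subtype, inf_eq_right.mpr h] at h2

theorem span_Omax_eq_top {act : Gal → G → G}
    (hsep : ∀ x y : G, x ≠ y → ∃ f ∈ Omax ℓ act, f x ≠ f y) :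
    Submodule.span Qb (Omax ℓ act : Set (G → Qb)) = ⊤ :=
  span_eq_top_of_sep _ (one_mem_Omax act) (fun _ _ hu hw => mul_mem_Omax hu hw) hsep

/-- If the maximal order separates the points, it is a lattice. -/
theorem isLat_Omax {act : Gal → G → G} (hbij : ∀ σ, Function.Bijective (act σ))
    (hsep : ∀ x y : G, x ≠ y → ∃ f ∈ Omax ℓ act, f x ≠ f y) :
    IsLat ℓ act (Omax ℓ act) := by
  have hsurj : ∀ σ, Function.Surjective (act σ) := fun σ => (hbij σ).surjective
  have htop := span_Omax_eq_top (ℓ := ℓ) hsep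
  have hfgtop : (Submodule.span Qb (Omax ℓ act : Set (G → Qb))).FG := by
    rw [htop]
    exact Module.Finite.fg_top
  obtain ⟨S', hS'sub, hS'span⟩ := Submodule.fg_span_iff_fg_span_finset_subset _ |>.mp hfgtop
  set N0 : Submodule (Zl ℓ) (G → Qb) := Submodule.span (Zl ℓ) (S' : Set (G → Qb)) with hN0
  have hN0le : N0 ≤ Omax ℓ act := Submodule.span_le.mpr hS'sub
  have hN0fg : N0.FG := Submodule.fg_span S'.finite_toSet
  have hN0span : Submodule.span Qb (N0 : Set (G → Qb)) = ⊤ := by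
    rw [eq_top_iff, ← htop, hS'span]
    exact Submodule.span_mono Submodule.subset_span
  have hN0lat : IsLat ℓ act N0 :=
    isLat_of_fg hsurj hN0fg (fun f hf => (hN0le hf).1) hN0span
  have hle : Omax ℓ act ≤ dualLat ℓ act N0 :=
    (Omax_le_dualLat hbij).trans (dualLat_anti hN0le)
  have hfg : (Omax ℓ act).FG := fg_of_le_fg (hN0lat.dual hbij).fg hle
  exact isLat_of_fg hsurj hfg (fun f hf => hf.1) htop

end Fermat.Agent.S19.Red.DualLattice
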