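/-
S19, reduction (RED), dual-lattice step (helper72): the lattice `Lam`, its dual `L`, and the
comultiplication of `L`.

`A` a valuation subring of `Qb` over `ℓ`, `S` a set of functions `G → Qb` (in the application the
`A`-algebra generated by the coordinate functions).

* `Lam ℓ act A hZA S` : the equivariant `c` with `∑ x, c x * h x ∈ A` for all `h ∈ S`;
* `Omax^* ≤ Lam` (`dualLat_Omax_le_Lam`, from `S ⊆ A • Omax`), `m • Lam ≤ Omax`
  (`exists_nat_smul_mem_Omax`, from Lagrange elements in `S`), `Lam` closed under convolution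
  (`conv_mem_Lam`, from `Δ S ⊆ S ⊗ S`);
* `exists_lattice_core` : `L := Lam^*` is a finitely generated module of integral-valued
  equivariant functions separating the points with `Δ L ⊆ L ⊗ L`.
-/
import Mathlib
import Fermat.Agent.S19.Red.DualLattice.Omax

set_option autoImplicit false

noncomputable section

namespace Fermat.Agent.S19.Red.DualLattice

open GaloisRep
open Fermat.Agent.S19.HopfOrder

variable {ℓ : ℕ} {G : Type} [Fintype G]

theorem dotB_smul_A (A : ValuationSubring Qb) (a : A) (f g : G → Qb) :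
    dotB G f (a • g) = (a : Qb) * dotB G f g := by
  rw [dotB_apply, dotB_apply, Finset.mul_sum]
  refine Finset.sum_congr rfl fun x _ => ?_
  change f x * ((a : Qb) * g x) = _
  ring

theorem mem_of_isIntegral_int (A : ValuationSubring Qb) {x : Qb} (hx : IsIntegral ℤ x) :
    x ∈ A := by
  have h1 : IsIntegral A x := hx.tower_top
  obtain ⟨y, hy⟩ := IsIntegrallyClosed.algebraMap_eq_of_integral h1
  rw [← hy]
  exact y.2

/-- Every algebraic number has a nonzero natural multiple in `A`. -/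
theorem exists_nat_mul_mem (A : ValuationSubring Qb) (z : Qb) :
    ∃ m : ℕ, m ≠ 0 ∧ (m : Qb) * z ∈ A := by
  have halg : IsAlgebraic ℚ z := (AlgebraicClosure.isAlgebraic ℚ).isAlgebraic z
  have halgZ : IsAlgebraic ℤ z := (IsFractionRing.isAlgebraic_iff ℤ ℚ Qb).mpr halg
  obtain ⟨y, hy0, hy⟩ := halgZ.exists_integral_multiple
  have h1 : (y : Qb) * z ∈ A := by
    have h2 := mem_of_isIntegral_int A hy
    rwa [zsmul_eq_mul] at h2
  refine ⟨y.natAbs, Int.natAbs_ne_zero.mpr hy0, ?_⟩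
  rcases Int.natAbs_eq y with h3 | h3
  · have h4 : ((y.natAbs : ℕ) : Qb) = (y : Qb) := by
      have h5 := congrArg (Int.cast : ℤ → Qb) h3
      rw [Int.cast_natCast] at h5
      exact h5.symm
    rw [h4]
    exact h1
  · have h4 : ((y.natAbs : ℕ) : Qb) = -(y : Qb) := by
      have h5 := congrArg (Int.cast : ℤ → Qb) h3
      rw [Int.cast_neg, Int.cast_natCast] at h5
      rw [h5, neg_neg]
    rw [h4, neg_mul]
    exact A.neg_mem _ h1

/-! ### The lattice `Lam` -/

/-- The equivariant functions pairing every element of `S` into `A`. -/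
def Lam (ℓ : ℕ) (act : Gal → G → G) (A : ValuationSubring Qb)
    (hZA : ∀ r : Zl ℓ, algebraMap (Zl ℓ) Qb r ∈ A) (S : Set (G → Qb)) :
    Submodule (Zl ℓ) (G → Qb) where
  carrier := {c | IsEqv act c ∧ ∀ h ∈ S, dotB G c h ∈ A}
  add_mem' := by
    rintro f g ⟨hf, hf'⟩ ⟨hg, hg'⟩
    refine ⟨hf.add hg, fun h hh => ?_⟩
    rw [map_add, LinearMap.add_apply]
    exact A.add_mem _ _ (hf' h hh) (hg' h hh)
  zero_mem' := ⟨IsEqv.zero act, fun h _ => by
    rw [map_zero, LinearMap.zero_apply]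
    exact A.zero_mem⟩
  smul_mem' := by
    rintro r f ⟨hf, hf'⟩
    refine ⟨hf.smul_Zl r, fun h hh => ?_⟩
    rw [dotB_smul_Zl_left]
    exact A.mul_mem _ _ (hZA r) (hf' h hh)

variable {act : Gal → G → G} {A : ValuationSubring Qb}
  {hZA : ∀ r : Zl ℓ, algebraMap (Zl ℓ) Qb r ∈ A} {S : Set (G → Qb)}

/-- `Omax^* ≤ Lam` when `S` lies in the `A`-span of the maximal order. -/
theorem dualLat_Omax_le_Lam
    (hS : ∀ h ∈ S, h ∈ Submodule.span ↥A (Omax ℓ act : Set (G → Qb))) :
    dualLat ℓ act (Omax ℓ act) ≤ Lam ℓ act A hZA S := by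
  rintro c ⟨hc, hc'⟩
  have key : ∀ h ∈ Submodule.span ↥A (Omax ℓ act : Set (G → Qb)), dotB G c h ∈ A := by
    intro h h1
    induction h1 using Submodule.span_induction with
    | mem ν hν =>
      obtain ⟨r, hr⟩ := hc' ν hν
      rw [← hr]
      exact hZA r
    | zero =>
      rw [map_zero]
      exact A.zero_mem
    | add u w _ _ hu hw =>
      rw [map_add]
      exact A.add_mem _ _ hu hw
    | smul a u _ hu =>
      rw [dotB_smul_A]
      exact A.mul_mem _ _ a.2 hu
  exact ⟨hc, fun h hh => key h (hS h hh)⟩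

/-- A nonzero integer multiple of `Lam` lies in the maximal order, when `S` contains, for every
point `x`, a function vanishing exactly off `x`. -/
theorem exists_nat_smul_mem_Omax (hℓ : ℓ.Prime) (hA : A.LiesOverPrime ℓ)
    (hcond : ∀ x : G, ∃ h ∈ S, h x ≠ 0 ∧ ∀ y, y ≠ x → h y = 0) :
    ∃ m : ℕ, m ≠ 0 ∧ ∀ c ∈ Lam ℓ act A hZA S, ((m : ℕ) : Zl ℓ) • c ∈ Omax ℓ act := by
  classical
  choose h hS hx hy using hcond
  have key : ∀ c ∈ Lam ℓ act A hZA S, ∀ x, c x * h x x ∈ A := by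
    intro c hc x
    have h1 := hc.2 (h x) (hS x)
    rw [dotB_apply, Finset.sum_eq_single x] at h1
    · exact h1
    · intro y _ hyx
      rw [hy x y hyx, mul_zero]
    · intro hx'
      exact absurd (Finset.mem_univ x) hx'
  choose m hm0 hmA using fun x => exists_nat_mul_mem A (h x x)⁻¹
  refine ⟨∏ x, m x, Finset.prod_ne_zero_iff.mpr (fun x _ => hm0 x), fun c hc => ?_⟩
  refine ⟨hc.1.smul_Zl _, fun x => ?_⟩
  apply isIntegral_of_forall_conj_mem A hℓ hA
  intro σ
  have h1 : (((∏ x, m x : ℕ) : Zl ℓ) • c) x = ((∏ x, m x : ℕ) : Qb) * c x := by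
    rw [Pi.smul_apply, Algebra.smul_def, map_natCast]
  rw [h1, map_mul, map_natCast, ← hc.1 σ x]
  set y := act σ x with hy'
  have h2 : ((∏ x, m x : ℕ) : Qb) * c y =
      ((∏ z ∈ Finset.univ.erase y, m z : ℕ) : Qb) * ((m y : Qb) * (h y y)⁻¹) * (c y * h y y) := by
    rw [← Finset.prod_erase_mul Finset.univ m (Finset.mem_univ y)]
    push_cast
    field_simp [hx y]
  rw [h2]
  exact A.mul_mem _ _ (A.mul_mem _ _ (natCast_mem A _) (hmA y)) (key c hc y)

/-- `Lam` is finitely generated. -/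
theorem Lam_fg (hOfg : (Omax ℓ act).FG) {m : ℕ} (hm : m ≠ 0)
    (hmem : ∀ c ∈ Lam ℓ act A hZA S, ((m : ℕ) : Zl ℓ) • c ∈ Omax ℓ act) :
    (Lam ℓ act A hZA S).FG := by
  let μ : (G → Qb) →ₗ[Zl ℓ] (G → Qb) := LinearMap.lsmul (Zl ℓ) (G → Qb) ((m : ℕ) : Zl ℓ)
  have hinj : Function.Injective μ := by
    intro f g hfg
    funext x
    have h1 := congrFun hfg x
    simp only [μ, LinearMap.lsmul_apply, Pi.smul_apply, Algebra.smul_def, map_natCast] at h1
    have hm' : (m : Qb) ≠ 0 := Nat.cast_ne_zero.mpr hm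
    exact mul_left_cancel₀ hm' h1
  have h1 : (Submodule.map μ (Lam ℓ act A hZA S)).FG := by
    refine fg_of_le_fg hOfg ?_
    rintro _ ⟨c, hc, rfl⟩
    exact hmem c hc
  exact Submodule.fg_of_fg_map_injective μ hinj h1

/-! ### Convolution -/

section Conv

variable [AddCommGroup G]

/-- Convolution of functions on `G`. -/
def conv (c c' : G → Qb) : G → Qb := fun z => ∑ u, c u * c' (z - u)

theorem dotB_conv (c c' h : G → Qb) :
    dotB G (conv c c') h = ∑ u, ∑ v, c u * c' v * h (u + v) := by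
  rw [dotB_apply]
  simp only [conv, Finset.sum_mul]
  rw [Finset.sum_comm]
  refine Finset.sum_congr rfl fun u _ => ?_
  rw [← Equiv.sum_comp (Equiv.addLeft u)]
  refine Finset.sum_congr rfl fun v _ => ?_
  simp

theorem isEqv_conv (hadd : ∀ σ x y, act σ (x + y) = act σ x + act σ y)
    (hbij : ∀ σ, Function.Bijective (act σ)) {c c' : G → Qb} (hc : IsEqv act c)
    (hc' : IsEqv act c') : IsEqv act (conv c c') := by
  intro σ z
  have hsub : ∀ a b, act σ (a - b) = act σ a - act σ b := by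
    intro a b
    have h1 := hadd σ (a - b) b
    rw [sub_add_cancel] at h1
    rw [h1, add_sub_cancel_right]
  simp only [conv]
  rw [map_sum, ← (hbij σ).sum_comp (fun u => c u * c' (act σ z - u))]
  refine Finset.sum_congr rfl fun u _ => ?_
  rw [map_mul, ← hc σ u, ← hc' σ (z - u), hsub]

/-- `Lam` is closed under convolution when `Δ S ⊆ S ⊗ S`. -/
theorem conv_mem_Lam (hadd : ∀ σ x y, act σ (x + y) = act σ x + act σ y)
    (hbij : ∀ σ, Function.Bijective (act σ))
    (hSΔ : ∀ h ∈ S, (fun p : G × G => h (p.1 + p.2)) ∈ Submodule.span ↥A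
      {F : G × G → Qb | ∃ b ∈ S, ∃ b' ∈ S, F = fun p => b p.1 * b' p.2})
    {c c' : G → Qb} (hc : c ∈ Lam ℓ act A hZA S) (hc' : c' ∈ Lam ℓ act A hZA S) :
    conv c c' ∈ Lam ℓ act A hZA S := by
  refine ⟨isEqv_conv hadd hbij hc.1 hc'.1, fun h hh => ?_⟩
  rw [dotB_conv]
  have key : ∀ F ∈ Submodule.span ↥A
      {F : G × G → Qb | ∃ b ∈ S, ∃ b' ∈ S, F = fun p => b p.1 * b' p.2},
      (∑ u, ∑ v, c u * c' v * F (u, v)) ∈ A := by
    intro F hF
    induction hF using Submodule.span_induction with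
    | mem F hF =>
      obtain ⟨b, hb, b', hb', rfl⟩ := hF
      have h1 : (∑ u, ∑ v, c u * c' v * (b u * b' v)) = dotB G c b * dotB G c' b' := by
        rw [dotB_apply, dotB_apply, Finset.sum_mul_sum]
        refine Finset.sum_congr rfl fun u _ => Finset.sum_congr rfl fun v _ => ?_
        ring
      rw [h1]
      exact A.mul_mem _ _ (hc.2 b hb) (hc'.2 b' hb')
    | zero =>
      simp only [Pi.zero_apply, mul_zero, Finset.sum_const_zero]
      exact A.zero_mem
    | add F F' _ _ hF hF' =>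
      simp only [Pi.add_apply, mul_add, Finset.sum_add_distrib]
      exact A.add_mem _ _ hF hF'
    | smul a F _ hF =>
      have h1 : (∑ u, ∑ v, c u * c' v * (a • F) (u, v)) =
          (a : Qb) * ∑ u, ∑ v, c u * c' v * F (u, v) := by
        simp only [Finset.mul_sum]
        refine Finset.sum_congr rfl fun u _ => Finset.sum_congr rfl fun v _ => ?_
        change c u * c' v * ((a : Qb) * F (u, v)) = _
        ring
      rw [h1]
      exact A.mul_mem _ _ a.2 hF
  exact key _ (hSΔ h hh)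

/-- The comultiplication of the dual of a convolution-closed lattice. -/
theorem comul_mem_span_dualLat {N : Submodule (Zl ℓ) (G → Qb)} (hN : IsLat ℓ act N)
    (hbij : ∀ σ, Function.Bijective (act σ))
    (hconv : ∀ c ∈ N, ∀ c' ∈ N, conv c c' ∈ N) :
    ∀ f ∈ dualLat ℓ act N, (fun p : G × G => f (p.1 + p.2)) ∈ Submodule.span (Zl ℓ)
      {F : G × G → Qb | ∃ b ∈ dualLat ℓ act N, ∃ c ∈ dualLat ℓ act N,
        F = fun p => b p.1 * c p.2} := by
  classical
  obtain ⟨κ, _, b, hb, rfl⟩ := hN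
  intro f hf
  set a := (dotB G).dualBasis dotB_nondegenerate b with ha
  have hbN : ∀ i, b i ∈ Submodule.span (Zl ℓ) (Set.range b) :=
    fun i => Submodule.subset_span ⟨i, rfl⟩
  have haL : ∀ i, a i ∈ dualLat ℓ act (Submodule.span (Zl ℓ) (Set.range b)) := by
    intro i
    rw [dualLat_span_basis hbij b hb]
    exact Submodule.subset_span ⟨i, rfl⟩
  -- expansion of an arbitrary function
  have hexp : ∀ (g : G → Qb) (x : G), g x = ∑ i, dotB G g (b i) * a i x := by
    intro g x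
    have h1 := congrFun (a.sum_repr g) x
    rw [Finset.sum_apply] at h1
    rw [← h1]
    refine Finset.sum_congr rfl fun i _ => ?_
    rw [Pi.smul_apply, smul_eq_mul, ha, LinearMap.BilinForm.dualBasis_repr_apply]
  -- the structure constants
  have hr : ∀ i j, ∃ r : Zl ℓ, algebraMap (Zl ℓ) Qb r = dotB G f (conv (b i) (b j)) :=
    fun i j => hf.2 _ (hconv _ (hbN i) _ (hbN j))
  choose r hr using hr
  have hid : ∀ x y, f (x + y) = ∑ i, ∑ j, algebraMap (Zl ℓ) Qb (r i j) * (a i x * a j y) := by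
    intro x y
    rw [hexp (fun x => f (x + y)) x]
    refine Finset.sum_congr rfl fun i _ => ?_
    rw [hexp (fun y => dotB G (fun x => f (x + y)) (b i)) y, Finset.sum_mul]
    refine Finset.sum_congr rfl fun j _ => ?_
    have h1 : dotB G (fun y => dotB G (fun x => f (x + y)) (b i)) (b j) =
        algebraMap (Zl ℓ) Qb (r i j) := by
      rw [hr i j, dotB_comm f, dotB_conv, dotB_apply]
      simp only [dotB_apply, Finset.sum_mul]
      rw [Finset.sum_comm]
      refine Finset.sum_congr rfl fun u _ => Finset.sum_congr rfl fun v _ => ?_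
      ring
    rw [h1]
    ring
  have hfun : (fun p : G × G => f (p.1 + p.2)) =
      ∑ i, ∑ j, r i j • (fun p : G × G => a i p.1 * a j p.2) := by
    funext p
    rw [hid p.1 p.2, Finset.sum_apply]
    refine Finset.sum_congr rfl fun i _ => ?_
    rw [Finset.sum_apply]
    refine Finset.sum_congr rfl fun j _ => ?_
    rw [Pi.smul_apply, Algebra.smul_def]
  rw [hfun]
  refine Submodule.sum_mem _ fun i _ => Submodule.sum_mem _ fun j _ => ?_
  exact Submodule.smul_mem _ _ (Submodule.subset_span ⟨a i, haL i, a j, haL j, rfl⟩)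

/-- **The dual-lattice step, abstract form.** -/
theorem exists_lattice_core (hℓ : ℓ.Prime)
    (hadd : ∀ σ x y, act σ (x + y) = act σ x + act σ y)
    (hbij : ∀ σ, Function.Bijective (act σ))
    (hA : A.LiesOverPrime ℓ)
    (hOsep : ∀ x y : G, x ≠ y → ∃ f ∈ Omax ℓ act, f x ≠ f y)
    (hS : ∀ h ∈ S, h ∈ Submodule.span ↥A (Omax ℓ act : Set (G → Qb)))
    (hcond : ∀ x : G, ∃ h ∈ S, h x ≠ 0 ∧ ∀ y, y ≠ x → h y = 0)
    (hSΔ : ∀ h ∈ S, (fun p : G × G => h (p.1 + p.2)) ∈ Submodule.span ↥A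
      {F : G × G → Qb | ∃ b ∈ S, ∃ b' ∈ S, F = fun p => b p.1 * b' p.2}) :
    ∃ L : Submodule (Zl ℓ) (G → Qb), L.FG ∧ (∀ a ∈ L, ∀ x, IsIntegral (Zl ℓ) (a x)) ∧
      (∀ a ∈ L, ∀ (σ : Gal) (x : G), a (act σ x) = σ (a x)) ∧
      (∀ x y : G, x ≠ y → ∃ a ∈ L, a x ≠ a y) ∧
      ∀ a ∈ L, (fun p : G × G => a (p.1 + p.2)) ∈ Submodule.span (Zl ℓ)
        {F : G × G → Qb | ∃ b ∈ L, ∃ c ∈ L, F = fun p => b p.1 * c p.2} := by
  have hZA : ∀ r : Zl ℓ, algebraMap (Zl ℓ) Qb r ∈ A := algebraMap_Zl_mem A hA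
  have hsurj : ∀ σ, Function.Surjective (act σ) := fun σ => (hbij σ).surjective
  have hOlat : IsLat ℓ act (Omax ℓ act) := isLat_Omax hbij hOsep
  have h1 : dualLat ℓ act (Omax ℓ act) ≤ Lam ℓ act A hZA S := dualLat_Omax_le_Lam hS
  have h2 : Omax ℓ act ≤ Lam ℓ act A hZA S := (Omax_le_dualLat hbij).trans h1
  obtain ⟨m, hm0, hm⟩ := exists_nat_smul_mem_Omax (hZA := hZA) hℓ hA hcond
  have hLfg : (Lam ℓ act A hZA S).FG := Lam_fg hOlat.fg hm0 hm
  have hLspan : Submodule.span Qb (Lam ℓ act A hZA S : Set (G → Qb)) = ⊤ := by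
    rw [eq_top_iff, ← span_Omax_eq_top (ℓ := ℓ) hOsep]
    exact Submodule.span_mono h2
  have hLlat : IsLat ℓ act (Lam ℓ act A hZA S) :=
    isLat_of_fg hsurj hLfg (fun f hf => hf.1) hLspan
  have hdlat : IsLat ℓ act (dualLat ℓ act (Lam ℓ act A hZA S)) := hLlat.dual hbij
  have hle : dualLat ℓ act (Lam ℓ act A hZA S) ≤ Omax ℓ act := by
    have h3 := dualLat_anti (ℓ := ℓ) (act := act) h1
    rwa [hOlat.dual_dual hbij] at h3
  refine ⟨dualLat ℓ act (Lam ℓ act A hZA S), hdlat.fg, fun a ha => (hle ha).2,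
    fun a ha => ha.1, ?_, ?_⟩
  · exact sep_of_span_eq_top _ hdlat.span_eq_top
  · exact comul_mem_span_dualLat hLlat hbij
      (fun c hc c' hc' => conv_mem_Lam hadd hbij hSΔ hc hc')

end Conv

end Fermat.Agent.S19.Red.DualLattice
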