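/-
S19, reduction (RED), TAIL X (helper72): `Red.RedStatement` through the dual lattice.

* `exists_isEqv_sep`   : for an action of finite level, the equivariant functions separate points;
* `Omax_sep_of_level`  : hence so does the maximal order;
* `gen_mem_span_Omax`  : CLAIM C (`ClaimCAlt.claimC_span`) puts every inertia-equivariant
                         `A`-valued function in the `A`-span of the maximal order;
* `exists_lattice_of_coords` : the lattice `L` (five conjuncts of `HopfGen.exists_hopf_of_lattice`);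
* `red_dual : Red.RedStatement`.
-/
import Mathlib
import Fermat.Agent.S19.HopfGen
import Fermat.Agent.S19.Red.Contract
import Fermat.Agent.S19.Red.ClaimCAlt
import Fermat.Agent.S19.Red.DualLattice.Core

set_option autoImplicit false

noncomputable section

namespace Fermat.Agent.S19.Red.DualLattice

open GaloisRep
open Fermat.Agent.S19.HopfOrder

/-! ### Finite level ⇒ equivariant functions separate the points -/

section Level

variable {G : Type} (act : Gal → G → G)

theorem exists_isEqv_sep (hone : ∀ x, act 1 x = x)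
    (hmul : ∀ σ τ x, act (σ * τ) x = act σ (act τ x))
    (L : IntermediateField ℚ Qb) [FiniteDimensional ℚ L]
    (hL : ∀ σ ∈ L.fixingSubgroup, ∀ x, act σ x = x) (x y : G) (hxy : x ≠ y) :
    ∃ f : G → Qb, IsEqv act f ∧ f x ≠ f y := by
  classical
  have hinv : ∀ (σ : Gal) (z : G), act σ⁻¹ (act σ z) = z := by
    intro σ z
    rw [← hmul, inv_mul_cancel, hone]
  have hinv' : ∀ (σ : Gal) (z : G), act σ (act σ⁻¹ z) = z := by
    intro σ z
    rw [← hmul, mul_inv_cancel, hone]
  -- the orbit of `x` is stable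
  have horb : ∀ (ρ : Gal) (z : G), (∃ σ, act σ x = act ρ z) ↔ ∃ σ, act σ x = z := by
    intro ρ z
    constructor
    · rintro ⟨σ, hσ⟩
      exact ⟨ρ⁻¹ * σ, by rw [hmul, hσ, hinv]⟩
    · rintro ⟨σ, hσ⟩
      exact ⟨ρ * σ, by rw [hmul, hσ]⟩
  by_cases hy : ∃ τ, act τ x = y
  · obtain ⟨τ, hτ⟩ := hy
    -- the stabiliser of `x`
    let S : Subgroup Gal :=
      { carrier := {σ | act σ x = x}
        mul_mem' := by
          intro a b ha hb
          change act (a * b) x = x
          rw [hmul, (hb : act b x = x), (ha : act a x = x)]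
        one_mem' := hone x
        inv_mem' := by
          intro a ha
          change act a⁻¹ x = x
          have h1 := hinv a x
          rwa [(ha : act a x = x)] at h1 }
    have hLS : L.fixingSubgroup ≤ S := fun σ hσ => hL σ hσ x
    have hSopen : IsOpen (S : Set Gal) :=
      Subgroup.isOpen_mono hLS (IntermediateField.fixingSubgroup_isOpen L)
    have hSclosed : IsClosed (S : Set Gal) := Subgroup.isClosed_of_isOpen S hSopen
    have : IsAlgClosure ℚ Qb := AlgebraicClosure.instIsAlgClosure ℚ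
    have hgal : IsGalois ℚ Qb := IsAlgClosure.isGalois ℚ Qb
    have hfix : (IntermediateField.fixedField S).fixingSubgroup = S :=
      InfiniteGalois.fixingSubgroup_fixedField (⟨S, hSclosed⟩ : ClosedSubgroup Gal)
    have hτS : τ ∉ S := by
      intro h
      exact hxy ((h : act τ x = x).symm.trans hτ)
    obtain ⟨b, hbS, hbτ⟩ : ∃ b : Qb, (∀ σ ∈ S, σ b = b) ∧ τ b ≠ b := by
      by_contra hcon
      apply hτS
      rw [← hfix, IntermediateField.mem_fixingSubgroup_iff]
      intro b hb
      by_contra hne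
      exact hcon ⟨b, fun σ hσ => hb ⟨σ, hσ⟩, hne⟩
    let f : G → Qb := fun z => if h : ∃ σ, act σ x = z then (Classical.choose h) b else 0
    have hf : ∀ (σ : Gal), f (act σ x) = σ b := by
      intro σ
      have h : ∃ σ', act σ' x = act σ x := ⟨σ, rfl⟩
      have h1 : f (act σ x) = (Classical.choose h) b := dif_pos h
      have h2 : act (Classical.choose h) x = act σ x := Classical.choose_spec h
      generalize Classical.choose h = σ₀ at h1 h2
      have h3 : σ₀⁻¹ * σ ∈ S := by
        change act (σ₀⁻¹ * σ) x = x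
        rw [hmul, ← h2, hinv]
      have h4 := hbS _ h3
      rw [h1]
      have h5 : σ₀ ((σ₀⁻¹ * σ) b) = σ b := by
        rw [AlgEquiv.mul_apply]
        exact AlgEquiv.apply_symm_apply σ₀ (σ b)
      rw [← h5, h4]
    refine ⟨f, ?_, ?_⟩
    · intro ρ z
      by_cases hz : ∃ σ, act σ x = z
      · obtain ⟨σ, rfl⟩ := hz
        rw [← hmul, hf, hf, AlgEquiv.mul_apply]
      · have hz' : ¬ ∃ σ, act σ x = act ρ z := fun h => hz ((horb ρ z).mp h)
        have h1 : f z = 0 := dif_neg hz
        have h2 : f (act ρ z) = 0 := dif_neg hz'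
        rw [h1, h2, map_zero]
    · have h1 : f x = b := by
        have h2 := hf 1
        rwa [hone, AlgEquiv.one_apply] at h2
      have h3 : f y = τ b := by
        rw [← hτ]
        exact hf τ
      rw [h1, h3]
      exact fun h => hbτ h.symm
  · -- different orbits: the indicator of the orbit of `x`
    refine ⟨fun z => if ∃ σ, act σ x = z then 1 else 0, ?_, ?_⟩
    · intro ρ z
      by_cases hz : ∃ σ, act σ x = z
      · have hz' : ∃ σ, act σ x = act ρ z := (horb ρ z).mpr hz
        simp only [if_pos hz, if_pos hz', map_one]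
      · have hz' : ¬ ∃ σ, act σ x = act ρ z := fun h => hz ((horb ρ z).mp h)
        simp only [if_neg hz, if_neg hz', map_zero]
    · have h1 : ∃ σ, act σ x = x := ⟨1, hone x⟩
      simp only [if_pos h1, if_neg hy]
      exact one_ne_zero

/-- For an action of finite level on a finite set, the maximal order separates the points. -/
theorem Omax_sep_of_level [Finite G] (ℓ : ℕ) (hone : ∀ x, act 1 x = x)
    (hmul : ∀ σ τ x, act (σ * τ) x = act σ (act τ x))
    (L : IntermediateField ℚ Qb) [FiniteDimensional ℚ L]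
    (hL : ∀ σ ∈ L.fixingSubgroup, ∀ x, act σ x = x) :
    ∀ x y : G, x ≠ y → ∃ f ∈ Omax ℓ act, f x ≠ f y := by
  classical
  cases nonempty_fintype G
  intro x y hxy
  obtain ⟨f, hf, hne⟩ := exists_isEqv_sep act hone hmul L hL x y hxy
  have hm : ∀ z : G, ∃ m : ℤ, m ≠ 0 ∧ IsIntegral ℤ (m • f z) := by
    intro z
    have halg : IsAlgebraic ℚ (f z) := (AlgebraicClosure.isAlgebraic ℚ).isAlgebraic (f z)
    have halgZ : IsAlgebraic ℤ (f z) := (IsFractionRing.isAlgebraic_iff ℤ ℚ Qb).mpr halg
    exact halgZ.exists_integral_multiple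
  choose m hm0 hmint using hm
  have hM0 : (∏ z, m z) ≠ 0 := Finset.prod_ne_zero_iff.mpr (fun z _ => hm0 z)
  have hMQ : (((∏ z, m z : ℤ) : Zl ℓ) : ℚ) = ((∏ z, m z : ℤ) : ℚ) := by
    push_cast
    rfl
  refine ⟨((∏ z, m z : ℤ) : Zl ℓ) • f, ⟨hf.smul_Zl _, fun z => ?_⟩, ?_⟩
  · have h1 : (((∏ z, m z : ℤ) : Zl ℓ) • f) z = ((∏ w ∈ Finset.univ.erase z, m w : ℤ) : Qb) *
        (m z • f z) := by
      rw [Pi.smul_apply, Algebra.smul_def, map_intCast, zsmul_eq_mul,
        ← Finset.prod_erase_mul Finset.univ m (Finset.mem_univ z)]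
      push_cast
      ring
    rw [h1]
    have h2 : IsIntegral ℤ (((∏ w ∈ Finset.univ.erase z, m w : ℤ) : Qb) * (m z • f z)) :=
      isIntegral_algebraMap.mul (hmint z)
    exact h2.tower_top
  · intro h
    have h1 := h
    rw [Pi.smul_apply, Pi.smul_apply, Algebra.smul_def, Algebra.smul_def, map_intCast] at h1
    have h2 : ((∏ z, m z : ℤ) : Qb) ≠ 0 := Int.cast_ne_zero.mpr hM0
    exact hne (mul_left_cancel₀ h2 h1)

end Level

/-! ### CLAIM C: generators in the `A`-span of the maximal order -/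

section Span

variable {ℓ : ℕ} {G : Type} [Fintype G] {act : Gal → G → G} {A : ValuationSubring Qb}

omit [Fintype G] in
theorem one_mem_span_Omax :
    (1 : G → Qb) ∈ Submodule.span ↥A (Omax ℓ act : Set (G → Qb)) :=
  Submodule.subset_span (one_mem_Omax act)

omit [Fintype G] in
theorem mul_mem_span_Omax {u w : G → Qb}
    (hu : u ∈ Submodule.span ↥A (Omax ℓ act : Set (G → Qb)))
    (hw : w ∈ Submodule.span ↥A (Omax ℓ act : Set (G → Qb))) :
    u * w ∈ Submodule.span ↥A (Omax ℓ act : Set (G → Qb)) := by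
  induction hu using Submodule.span_induction with
  | mem a ha =>
    induction hw using Submodule.span_induction with
    | mem b hb => exact Submodule.subset_span (mul_mem_Omax ha hb)
    | zero => rw [mul_zero]; exact Submodule.zero_mem _
    | add b c _ _ hb hc => rw [mul_add]; exact Submodule.add_mem _ hb hc
    | smul c b _ hb => rw [mul_smul_comm]; exact Submodule.smul_mem _ c hb
  | zero => rw [zero_mul]; exact Submodule.zero_mem _
  | add a b _ _ ha hb => rw [add_mul]; exact Submodule.add_mem _ ha hb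
  | smul c a _ ha => rw [smul_mul_assoc]; exact Submodule.smul_mem _ c ha

omit [Fintype G] in
/-- If the generators lie in the `A`-span of the maximal order, so does the `A`-algebra they
generate. -/
theorem adjoin_le_span_Omax {T : Set (G → Qb)}
    (hT : ∀ t ∈ T, t ∈ Submodule.span ↥A (Omax ℓ act : Set (G → Qb))) :
    ∀ h ∈ Algebra.adjoin ↥A T, h ∈ Submodule.span ↥A (Omax ℓ act : Set (G → Qb)) := by
  intro h hh
  induction hh using Algebra.adjoin_induction with
  | mem t ht => exact hT t ht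
  | algebraMap a =>
    rw [Algebra.algebraMap_eq_smul_one]
    exact Submodule.smul_mem _ a one_mem_span_Omax
  | add u w _ _ hu hw => exact Submodule.add_mem _ hu hw
  | mul u w _ _ hu hw => exact mul_mem_span_Omax hu hw

/-- **CLAIM C on the maximal order.** An `A`-valued function equivariant for the inertia group of
`A` lies in the `A`-span of the maximal order (which is assumed to separate the points). -/
theorem gen_mem_span_Omax (hℓ : ℓ.Prime) (hA : A.LiesOverPrime ℓ)
    (hone : ∀ x, act 1 x = x) (hmul : ∀ σ τ x, act (σ * τ) x = act σ (act τ x))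
    (hbij : ∀ σ, Function.Bijective (act σ))
    (hOsep : ∀ x y : G, x ≠ y → ∃ f ∈ Omax ℓ act, f x ≠ f y)
    (μ : G → Qb) (hμA : ∀ x, μ x ∈ A)
    (hμI : ∀ σ ∈ A.inertiaSubgroupIn ℚ, ∀ x, μ (act σ x) = σ (μ x)) :
    μ ∈ Submodule.span ↥A (Omax ℓ act : Set (G → Qb)) := by
  classical
  obtain ⟨κ, _, b, hb, -⟩ := isLat_Omax hbij hOsep
  let e : κ ≃ Fin (Fintype.card κ) := Fintype.equivFin κ
  let f : Fin (Fintype.card κ) → G → Qb := fun i => b (e.symm i)
  let a : Fin (Fintype.card κ) → Qb := fun i => b.repr μ (e.symm i)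
  have hsum : ∀ x, μ x = ∑ i, a i * f i x := by
    intro x
    have h1 := congrFun (b.sum_repr μ) x
    rw [Finset.sum_apply] at h1
    rw [← h1, ← Equiv.sum_comp e.symm]
    refine Finset.sum_congr rfl fun i _ => ?_
    rw [Pi.smul_apply, smul_eq_mul]
  have hindep : ∀ c : Fin (Fintype.card κ) → Qb, (∀ x, ∑ i, c i * f i x = 0) → ∀ i, c i = 0 := by
    intro c hc i
    have h1 : ∑ k, c (e k) • b k = 0 := by
      funext x
      rw [Finset.sum_apply, Pi.zero_apply, ← hc x, ← Equiv.sum_comp e.symm]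
      refine Finset.sum_congr rfl fun j _ => ?_
      rw [Pi.smul_apply, smul_eq_mul, Equiv.apply_symm_apply]
    have h2 := Fintype.linearIndependent_iff.mp b.linearIndependent (fun k => c (e k)) h1
      (e.symm i)
    simpa using h2
  have h3 := ClaimCAlt.claimC_span A hℓ hA act f hone hmul (fun i σ x => hb (e.symm i) σ x)
    hindep a (fun s hs x => by rw [← hsum, ← hsum, hμI s hs]) (fun x => by rw [← hsum]; exact hμA x)
  have h4 : (fun x => ∑ i, a i * f i x) = μ := by
    funext x
    exact (hsum x).symm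
  rw [h4] at h3
  refine Submodule.span_mono ?_ h3
  rintro ν ⟨hν, hνA⟩
  refine ⟨hν, fun x => isIntegral_of_forall_conj_mem A hℓ hA fun σ => ?_⟩
  rw [← hν σ x]
  exact hνA _

end Span

/-! ### The lattice from inertia-equivariant coordinates -/

section Coords

variable {ℓ : ℕ} {G : Type} [AddCommGroup G] {act : Gal → G → G} {A : ValuationSubring Qb}

omit [AddCommGroup G] in
/-- The span of the products `(x, y) ↦ a x * b y`, `a, b` in an `A`-subalgebra `R` of functions,
is closed under multiplication. -/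
theorem mul_mem_span_prod (R : Subalgebra ↥A (G → Qb)) {F F' : G × G → Qb}
    (hF : F ∈ Submodule.span ↥A
      {F : G × G → Qb | ∃ a ∈ R, ∃ b ∈ R, F = fun p => a p.1 * b p.2})
    (hF' : F' ∈ Submodule.span ↥A
      {F : G × G → Qb | ∃ a ∈ R, ∃ b ∈ R, F = fun p => a p.1 * b p.2}) :
    F * F' ∈ Submodule.span ↥A
      {F : G × G → Qb | ∃ a ∈ R, ∃ b ∈ R, F = fun p => a p.1 * b p.2} := by
  induction hF using Submodule.span_induction with
  | mem u hu =>
    induction hF' using Submodule.span_induction with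
    | mem w hw =>
      obtain ⟨a, ha, b, hb, rfl⟩ := hu
      obtain ⟨a', ha', b', hb', rfl⟩ := hw
      refine Submodule.subset_span ⟨a * a', R.mul_mem ha ha', b * b', R.mul_mem hb hb', ?_⟩
      funext p
      simp only [Pi.mul_apply]
      ring
    | zero => rw [mul_zero]; exact Submodule.zero_mem _
    | add b c _ _ hb hc => rw [mul_add]; exact Submodule.add_mem _ hb hc
    | smul c b _ hb => rw [mul_smul_comm]; exact Submodule.smul_mem _ c hb
  | zero => rw [zero_mul]; exact Submodule.zero_mem _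
  | add a b _ _ ha hb => rw [add_mul]; exact Submodule.add_mem _ ha hb
  | smul c a _ ha => rw [smul_mul_assoc]; exact Submodule.smul_mem _ c ha

/-- If `Δ` of the generators is a sum of products, so is `Δ` of every element of the generated
algebra. -/
theorem comul_adjoin {T : Set (G → Qb)}
    (hΔ : ∀ t ∈ T, (fun p : G × G => t (p.1 + p.2)) ∈ Submodule.span ↥A
      {F : G × G → Qb | ∃ a ∈ Algebra.adjoin ↥A T, ∃ b ∈ Algebra.adjoin ↥A T,
        F = fun p => a p.1 * b p.2}) :
    ∀ h ∈ Algebra.adjoin ↥A T, (fun p : G × G => h (p.1 + p.2)) ∈ Submodule.span ↥A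
      {F : G × G → Qb | ∃ a ∈ Algebra.adjoin ↥A T, ∃ b ∈ Algebra.adjoin ↥A T,
        F = fun p => a p.1 * b p.2} := by
  intro h hh
  induction hh using Algebra.adjoin_induction with
  | mem t ht => exact hΔ t ht
  | algebraMap a =>
    have h1 : (fun p : G × G => (algebraMap ↥A (G → Qb) a) (p.1 + p.2)) =
        a • (fun p : G × G => (1 : G → Qb) p.1 * (1 : G → Qb) p.2) := by
      funext p
      change (a : Qb) = (a : Qb) * (1 * 1)
      ring
    rw [h1]
    exact Submodule.smul_mem _ a
      (Submodule.subset_span ⟨1, Subalgebra.one_mem _, 1, Subalgebra.one_mem _, rfl⟩)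
  | add u w _ _ hu hw => exact Submodule.add_mem _ hu hw
  | mul u w _ _ hu hw => exact mul_mem_span_prod _ hu hw

omit [AddCommGroup G] in
/-- Lagrange: the algebra generated by separating `A`-valued functions contains, for every point,
a function vanishing exactly off that point. -/
theorem exists_lagrange [Fintype G] {ι : Type} (τ : ι → G → Qb) (hτA : ∀ j x, τ j x ∈ A)
    (hsep : ∀ x y, x ≠ y → ∃ j, τ j x ≠ τ j y) (x : G) :
    ∃ h ∈ Algebra.adjoin ↥A (Set.range τ), h x ≠ 0 ∧ ∀ y, y ≠ x → h y = 0 := by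
  classical
  have hex : ∀ y : G, ∃ g ∈ Algebra.adjoin ↥A (Set.range τ), (y ≠ x → g x ≠ 0 ∧ g y = 0) := by
    intro y
    by_cases hy : y = x
    · exact ⟨1, Subalgebra.one_mem _, fun h => absurd hy h⟩
    · obtain ⟨j, hj⟩ := hsep x y (Ne.symm hy)
      refine ⟨τ j - algebraMap ↥A (G → Qb) ⟨τ j y, hτA j y⟩,
        Subalgebra.sub_mem _ (Algebra.subset_adjoin ⟨j, rfl⟩) (Subalgebra.algebraMap_mem _ _),
        fun _ => ⟨?_, ?_⟩⟩
      · change τ j x - τ j y ≠ 0
        exact sub_ne_zero.mpr hj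
      · change τ j y - τ j y = 0
        exact sub_self _
  choose g hg hgx using hex
  refine ⟨∏ y ∈ Finset.univ.erase x, g y, Subalgebra.prod_mem _ (fun y _ => hg y), ?_, ?_⟩
  · rw [Finset.prod_apply]
    exact Finset.prod_ne_zero_iff.mpr fun y hy => (hgx y (Finset.ne_of_mem_erase hy)).1
  · intro z hz
    rw [Finset.prod_apply]
    exact Finset.prod_eq_zero (Finset.mem_erase.mpr ⟨hz, Finset.mem_univ z⟩) (hgx z hz).2

/-- **TAIL X, lattice form.** From inertia-equivariant `A`-valued coordinates with an exact group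
law over `A`: a finitely generated `ℤ_(ℓ)`-module of integral-valued equivariant functions,
separating the points, with `Δ L ⊆ L ⊗ L` (the hypotheses of `HopfGen.exists_hopf_of_lattice`). -/
theorem exists_lattice_of_coords [Finite G] (hℓ : ℓ.Prime) (hA : A.LiesOverPrime ℓ)
    (hone : ∀ x, act 1 x = x) (hmul : ∀ σ τ x, act (σ * τ) x = act σ (act τ x))
    (hadd : ∀ σ x y, act σ (x + y) = act σ x + act σ y)
    (L : IntermediateField ℚ Qb) [FiniteDimensional ℚ L]
    (hL : ∀ σ ∈ L.fixingSubgroup, ∀ x, act σ x = x)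
    {ι : Type} (τ : ι → G → Qb) (hτA : ∀ j x, τ j x ∈ A)
    (hτI : ∀ σ ∈ A.inertiaSubgroupIn ℚ, ∀ j x, τ j (act σ x) = σ (τ j x))
    (hsep : ∀ x y, x ≠ y → ∃ j, τ j x ≠ τ j y)
    (hΔ : ∀ j, (fun p : G × G => τ j (p.1 + p.2)) ∈ Submodule.span ↥A
      {F : G × G → Qb | ∃ a ∈ Algebra.adjoin ↥A (Set.range τ),
        ∃ b ∈ Algebra.adjoin ↥A (Set.range τ), F = fun p => a p.1 * b p.2}) :
    ∃ L : Submodule (Zl ℓ) (G → Qb), L.FG ∧ (∀ a ∈ L, ∀ x, IsIntegral (Zl ℓ) (a x)) ∧
      (∀ a ∈ L, ∀ (σ : Gal) (x : G), a (act σ x) = σ (a x)) ∧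
      (∀ x y : G, x ≠ y → ∃ a ∈ L, a x ≠ a y) ∧
      ∀ a ∈ L, (fun p : G × G => a (p.1 + p.2)) ∈ Submodule.span (Zl ℓ)
        {F : G × G → Qb | ∃ b ∈ L, ∃ c ∈ L, F = fun p => b p.1 * c p.2} := by
  classical
  cases nonempty_fintype G
  have hbij : ∀ σ, Function.Bijective (act σ) := fun σ =>
    Function.bijective_iff_has_inverse.mpr ⟨act σ⁻¹,
      fun z => by rw [← hmul, inv_mul_cancel, hone],
      fun z => by rw [← hmul, mul_inv_cancel, hone]⟩
  have hOsep := Omax_sep_of_level act ℓ hone hmul L hL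
  have hgen : ∀ t ∈ Set.range τ, t ∈ Submodule.span ↥A (Omax ℓ act : Set (G → Qb)) := by
    rintro _ ⟨j, rfl⟩
    exact gen_mem_span_Omax hℓ hA hone hmul hbij hOsep (τ j) (hτA j)
      (fun σ hσ x => hτI σ hσ j x)
  exact exists_lattice_core (S := {h | h ∈ Algebra.adjoin ↥A (Set.range τ)}) hℓ hadd hbij hA hOsep
    (fun h hh => adjoin_le_span_Omax hgen h hh)
    (fun x => exists_lagrange τ hτA hsep x)
    (comul_adjoin (by
      rintro _ ⟨j, rfl⟩
      exact hΔ j))

/-- From a lattice to an order: the algebra generated by the lattice. -/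
theorem exists_order_of_lattice [Finite G] (act : Gal → G → G) (L : Submodule (Zl ℓ) (G → Qb))
    (hfg : L.FG) (hint : ∀ a ∈ L, ∀ x : G, IsIntegral (Zl ℓ) (a x))
    (heq : ∀ a ∈ L, ∀ (σ : Gal) (x : G), a (act σ x) = σ (a x))
    (hsep : ∀ x y : G, x ≠ y → ∃ a ∈ L, a x ≠ a y)
    (hΔ : ∀ a ∈ L, (fun p : G × G => a (p.1 + p.2)) ∈ Submodule.span (Zl ℓ)
      {F : G × G → Qb | ∃ b ∈ L, ∃ c ∈ L, F = fun p => b p.1 * c p.2}) :
    ∃ H : Subalgebra (ratLocalizedAt ℓ) (G → Qb), (Subalgebra.toSubmodule H).FG ∧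
      (∀ h ∈ H, ∀ (σ : Gal) (x : G), h (act σ x) = σ (h x)) ∧
      (∀ x y : G, x ≠ y → ∃ h ∈ H, h x ≠ h y) ∧
      ∀ h ∈ H, (fun p : G × G => h (p.1 + p.2)) ∈ Submodule.span (ratLocalizedAt ℓ)
        {F : G × G → Qb | ∃ a ∈ H, ∃ b ∈ H, F = fun p => a p.1 * b p.2} := by
  obtain ⟨S, hSfin, hS⟩ := Submodule.fg_def.mp hfg
  have hSL : ∀ a ∈ S, a ∈ L := fun a ha => hS ▸ Submodule.subset_span ha
  have hLadj : ∀ a ∈ L, a ∈ Algebra.adjoin (Zl ℓ) S := by
    intro a ha
    rw [← hS] at ha
    exact Algebra.span_le_adjoin (Zl ℓ) S ha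
  have hle : Algebra.adjoin (Zl ℓ) S ≤
      (HopfGen.prodAlg (Algebra.adjoin (Zl ℓ) S)).comap (HopfGen.addPull ℓ G) := by
    refine Algebra.adjoin_le ?_
    intro a ha
    have h1 : (fun p : G × G => a (p.1 + p.2)) ∈
        Submodule.span (Zl ℓ) (HopfGen.prodSet (Algebra.adjoin (Zl ℓ) S)) := by
      refine Submodule.span_mono ?_ (hΔ a (hSL a ha))
      rintro _ ⟨b, hb, c, hc, rfl⟩
      exact ⟨b, hLadj b hb, c, hLadj c hc, rfl⟩
    rw [HopfGen.span_prodSet] at h1
    exact h1
  refine ⟨Algebra.adjoin (Zl ℓ) S, ?_, ?_, ?_, ?_⟩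
  · exact fg_adjoin_of_finite hSfin
      (fun a ha => HopfGen.isIntegral_fun_of_forall (hint a (hSL a ha)))
  · exact HopfGen.equivariant_adjoin act S (fun a ha => heq a (hSL a ha))
  · intro x y hxy
    obtain ⟨a, ha, hne⟩ := hsep x y hxy
    exact ⟨a, hLadj a ha, hne⟩
  · intro h hh
    have h1 : HopfGen.addPull ℓ G h ∈ HopfGen.prodAlg (Algebra.adjoin (Zl ℓ) S) := hle hh
    change (fun p : G × G => h (p.1 + p.2)) ∈
      Submodule.span (Zl ℓ) (HopfGen.prodSet (Algebra.adjoin (Zl ℓ) S))
    rw [HopfGen.span_prodSet]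
    exact h1

end Coords

/-- **TAIL X: the exit of (RED) through the dual lattice.** -/
theorem red_dual : Fermat.Agent.S19.Red.RedStatement := by
  intro ℓ hℓ G _ _ act hone hmul hadd L _ hL A hA ι _ τ hτA hτI hsep hΔ
  obtain ⟨Lat, hfg, hint, heq, hsepL, hΔL⟩ :=
    exists_lattice_of_coords hℓ.out hA hone hmul hadd L hL τ hτA hτI hsep hΔ
  exact exists_order_of_lattice act Lat hfg hint heq hsepL hΔL

end Fermat.Agent.S19.Red.DualLattice
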