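/-
S19, reduction (RED), TAIL X (helper72): the (RED) hypothesis of the top contract
`Fermat.Agent.S19.Contract.result_of_contract` as a theorem, through the dual lattice
(`red_dual`) and helper217's adapter.
-/
import Fermat.Agent.S19.Red.Adapter
import Fermat.Agent.S19.Red.DualLattice.Main

set_option autoImplicit false

namespace Fermat.Agent.S19.Red.DualLattice

/-- **`Contract.RedStatement` is a theorem** (TAIL X). -/
theorem contract_red_dual : Fermat.Agent.S19.Contract.RedStatement :=
  Fermat.Agent.S19.Red.Adapter.contract_red_of_red red_dual

end Fermat.Agent.S19.Red.DualLattice
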